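import Fermat.Agent.S19.KM.Curve.Defs

/-!
# S19 / KM route: curve layer, section C0 (basic facts on `L(D)`, `divOf`)
Owner: helper288.
-/

set_option autoImplicit false

noncomputable section

namespace Fermat.Agent.S19.KM

open AlgebraicCurve Fermat.Agent.S24.FF Fermat.Agent.Lib.RR Module

variable {K F : Type*} [Field K] [Field F] [Algebra K F] [IsCurve K F]

/-- a transcendental element has a zero -/
theorem exists_zero {t : F} (ht : Transcendental K t) : ∃ v : Place K F, 0 < v.ord t := by
  obtain ⟨v, hv⟩ := exists_pole (transcendental_inv ht)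
  rw [v.ord_inv] at hv
  exact ⟨v, by omega⟩

theorem infinite_place : Infinite (Place K F) := by
  obtain ⟨x, hx⟩ := IsCurve.nonconst (K := K) (F := F)
  have hz : ∀ c : K, ∃ v : Place K F, 0 < v.ord (x - algebraMap K F c) := fun c =>
    exists_zero (transcendental_sub_const hx c)
  choose φ hφ using hz
  have : Infinite K := IsAlgClosed.instInfinite
  refine Infinite.of_injective φ ?_
  intro c c' hcc
  by_contra hne
  have h1 := hφ c
  have h2 := hφ c'
  rw [← hcc] at h2
  have h3 : (x - algebraMap K F c) + -(x - algebraMap K F c') = algebraMap K F (c' - c) := by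
    rw [map_sub]; ring
  have h30 : (x - algebraMap K F c) + -(x - algebraMap K F c') ≠ 0 := by
    rw [h3, Ne, map_eq_zero, sub_eq_zero]
    exact fun h => hne h.symm
  have h4 := min_ord_le_ord_add (φ c) h30
  rw [h3, ord_algebraMap, ord_neg] at h4
  have := lt_min h1 h2
  omega

theorem dg_pt (v : Place K F) : dg (pt v) = 1 := degree_single_eq v 1

theorem ell_eq_zero {D : Divisor K F} (h : dg D < 0) : ell D = 0 := by
  show finrank K (riemannRochSpace D) = 0
  rw [L_eq_bot_of_degree_neg h]
  exact finrank_bot K F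

theorem ell_le {D : Divisor K F} (h : -1 ≤ dg D) : (ell D : ℤ) ≤ dg D + 1 := by
  obtain ⟨v₀⟩ := nonempty_place (IsCurve.nonconst (K := K) (F := F))
  set E : Divisor K F := Finsupp.single v₀ (dg D + 1) with hE
  have hE0 : 0 ≤ E := by
    intro w
    classical
    rw [hE, Finsupp.single_apply]
    split_ifs
    · simpa using (by omega : 0 ≤ dg D + 1)
    · exact le_refl _
  have hdE : dg E = dg D + 1 := degree_single_eq v₀ _
  have h1 := finrank_L_add_le (IsCurve.nonconst (K := K) (F := F)) (D - E) E hE0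
  rw [sub_add_cancel] at h1
  have h2 : ell (D - E) = 0 := ell_eq_zero (by
    show Divisor.degree (D - E) < 0
    rw [map_sub]
    have : Divisor.degree E = Divisor.degree D + 1 := hdE
    omega)
  have h2' : finrank K (riemannRochSpace (D - E)) = 0 := h2
  rw [h2'] at h1
  have : Divisor.degree E = Divisor.degree D + 1 := hdE
  show (finrank K (riemannRochSpace D) : ℤ) ≤ Divisor.degree D + 1
  simpa [this] using h1

theorem exists_mem_L_ne_zero {D : Divisor K F} (h : gen K F ≤ dg D) : ∃ f ∈ L D, f ≠ 0 := by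
  apply Submodule.exists_mem_ne_zero_of_ne_bot
  intro hb
  have h1 := le_ell D
  have h2 : ell D = 0 := by
    show finrank K (riemannRochSpace D) = 0
    have hb' : riemannRochSpace D = ⊥ := hb
    rw [hb']
    exact finrank_bot K F
  rw [h2] at h1
  simp only [Nat.cast_zero] at h1
  omega

theorem mem_L_iff {D : Divisor K F} {f : F} (hf : f ≠ 0) : f ∈ L D ↔ 0 ≤ divOf f + D := by
  rw [mem_riemannRochSpace_iff, Finsupp.le_def]
  refine forall_congr' fun v => ?_
  rw [Finsupp.add_apply, divOf_apply, Finsupp.zero_apply]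
  constructor
  · rintro (h | h)
    · exact absurd h hf
    · omega
  · intro h
    right
    omega

theorem dg_nonneg_of_mem_L {D : Divisor K F} {f : F} (hf : f ∈ L D) (hf0 : f ≠ 0) : 0 ≤ dg D := by
  by_contra h
  have hb : riemannRochSpace D = ⊥ := L_eq_bot_of_degree_neg (not_le.mp h)
  have hf' : f ∈ riemannRochSpace D := hf
  rw [hb, Submodule.mem_bot] at hf'
  exact hf0 hf'

theorem divOf_mul {f g : F} (hf : f ≠ 0) (hg : g ≠ 0) :
    divOf (K := K) (f * g) = divOf f + divOf g := by
  ext v
  rw [Finsupp.add_apply, divOf_apply, divOf_apply, divOf_apply, v.ord_mul hf hg]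

theorem divOf_inv (f : F) : divOf (K := K) f⁻¹ = - divOf f := by
  ext v
  rw [Finsupp.neg_apply, divOf_apply, divOf_apply, v.ord_inv]

theorem divOf_smul {c : K} (hc : c ≠ 0) (f : F) : divOf (K := K) (c • f) = divOf f := by
  ext v
  rw [divOf_apply, divOf_apply]
  rcases eq_or_ne f 0 with rfl | hf
  · rw [smul_zero]
  · rw [Algebra.smul_def, v.ord_mul ((map_ne_zero _).mpr hc) hf, ord_algebraMap, zero_add]

theorem mul_mem_L {D D' : Divisor K F} {f g : F} (hf : f ∈ L D) (hg : g ∈ L D') :
    f * g ∈ L (D + D') := by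
  rcases eq_or_ne f 0 with rfl | hf0
  · rw [zero_mul]; exact Submodule.zero_mem _
  rcases eq_or_ne g 0 with rfl | hg0
  · rw [mul_zero]; exact Submodule.zero_mem _
  rw [mem_L_iff hf0] at hf
  rw [mem_L_iff hg0] at hg
  rw [mem_L_iff (mul_ne_zero hf0 hg0), divOf_mul hf0 hg0]
  have := add_nonneg hf hg
  rwa [add_add_add_comm] at this

theorem L_mul_le (D D' : Divisor K F) : L D * L D' ≤ L (D + D') :=
  Submodule.mul_le.mpr fun _ hf _ hg => mul_mem_L hf hg

theorem self_mem_L_neg_divOf {a : F} (ha : a ≠ 0) : a ∈ L (- divOf (K := K) a) := by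
  rw [mem_L_iff ha, add_neg_cancel]

theorem inv_mem_L_divOf {a : F} (ha : a ≠ 0) : a⁻¹ ∈ L (divOf (K := K) a) := by
  rw [mem_L_iff (inv_ne_zero ha), divOf_inv, neg_add_cancel]

/-- multiplication by `a` : `a L(D) = L(D - (a))` -/
theorem span_singleton_mul_L {a : F} (ha : a ≠ 0) (D : Divisor K F) :
    (K ∙ a) * L D = L (D - divOf a) := by
  apply le_antisymm
  · rw [Submodule.mul_le]
    intro x hx f hf
    obtain ⟨c, rfl⟩ := Submodule.mem_span_singleton.mp hx
    rw [smul_mul_assoc]
    refine Submodule.smul_mem _ c ?_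
    have := mul_mem_L (self_mem_L_neg_divOf (K := K) ha) hf
    rwa [neg_add_eq_sub] at this
  · intro g hg
    have h1 : a⁻¹ * g ∈ L D := by
      have := mul_mem_L (inv_mem_L_divOf (K := K) ha) hg
      rwa [add_sub_cancel] at this
    have h2 : g = a * (a⁻¹ * g) := by rw [mul_inv_cancel_left₀ ha]
    rw [h2]
    exact Submodule.mul_mem_mul (Submodule.mem_span_singleton_self a) h1

omit [IsCurve K F] in
theorem span_singleton_mul_eq_map (a : F) (W : Submodule K F) :
    (K ∙ a) * W = W.map (LinearMap.mulLeft K a) := by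
  apply le_antisymm
  · rw [Submodule.mul_le]
    intro x hx f hf
    obtain ⟨c, rfl⟩ := Submodule.mem_span_singleton.mp hx
    refine ⟨c • f, W.smul_mem c hf, ?_⟩
    rw [LinearMap.mulLeft_apply, mul_smul_comm, smul_mul_assoc]
  · rintro _ ⟨f, hf, rfl⟩
    exact Submodule.mul_mem_mul (Submodule.mem_span_singleton_self a) hf

omit [IsCurve K F] in
theorem finrank_span_singleton_mul {a : F} (ha : a ≠ 0) (W : Submodule K F) :
    finrank K ((K ∙ a) * W : Submodule K F) = finrank K W := by
  rw [span_singleton_mul_eq_map]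
  have hinj : Function.Injective (LinearMap.mulLeft K a) := fun x y hxy =>
    mul_left_cancel₀ ha (by simpa using hxy)
  exact (Submodule.equivMapOfInjective _ hinj W).finrank_eq.symm

/-- `l(E) = 1` for `E ≥ 0` means that `E` is the only effective divisor in its class -/
theorem eq_of_ell_eq_one {E E' : Divisor K F} (hE : 0 ≤ E) (hE' : 0 ≤ E') (h : ell E = 1)
    {y : F} (hy : y ≠ 0) (he : E' - E = divOf y) : E' = E := by
  have hyL : y ∈ L E := by
    rw [mem_L_iff hy, ← he, sub_add_cancel]
    exact hE'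
  have h1L : (1 : F) ∈ L E := by
    rw [mem_L_iff one_ne_zero]
    have : divOf (K := K) (1 : F) = 0 := by
      ext v
      rw [divOf_apply, v.ord_one, Finsupp.zero_apply]
    rw [this, zero_add]
    exact hE
  have h1ne : (⟨1, h1L⟩ : L E) ≠ 0 := by
    intro h0
    exact one_ne_zero (congrArg Subtype.val h0)
  obtain ⟨c, hc⟩ := (finrank_eq_one_iff_of_nonzero' (⟨1, h1L⟩ : L E) h1ne).mp h ⟨y, hyL⟩
  have hc' : c • (1 : F) = y := congrArg Subtype.val hc
  have hc0 : c ≠ 0 := by
    rintro rfl
    rw [zero_smul] at hc'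
    exact hy hc'.symm
  have hdiv : divOf (K := K) y = 0 := by
    rw [← hc', divOf_smul hc0]
    ext v
    rw [divOf_apply, v.ord_one, Finsupp.zero_apply]
  rw [hdiv] at he
  exact sub_eq_zero.mp he

/-- an effective divisor of degree one is a place -/
theorem exists_eq_pt {E : Divisor K F} (hE : 0 ≤ E) (h : dg E = 1) : ∃ v, E = pt v := by
  have hE0 : E ≠ 0 := by
    rintro rfl
    have : dg (0 : Divisor K F) = 0 := map_zero _
    omega
  obtain ⟨v, hv⟩ := Finsupp.ne_iff.mp hE0
  refine ⟨v, ?_⟩
  have hv1 : 1 ≤ E v := by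
    have h0 := hE v
    rw [Finsupp.zero_apply] at h0 hv
    omega
  have hnn : 0 ≤ E - pt v := by
    intro w
    classical
    rw [Finsupp.sub_apply, Finsupp.single_apply, Finsupp.zero_apply]
    split_ifs with hw
    · subst hw; omega
    · have := hE w
      rw [Finsupp.zero_apply] at this
      omega
  have hd : Divisor.degree (E - pt v) = 0 := by
    rw [map_sub]
    have h1 : Divisor.degree E = 1 := h
    have h2 : Divisor.degree (pt v) = 1 := dg_pt v
    omega
  exact sub_eq_zero.mp (eq_zero_of_degree_eq_zero hnn hd)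

end Fermat.Agent.S19.KM
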