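import Fermat.Agent.S19.KM.Curve.Defs

/-!
# S19 / KM route, section C1: base point free spaces of functions

`isBpf_L`, `IsBpf.exists_forall`, `IsBpf.exists_pencil`, `IsBpf.le_iff`, `L_le_L_iff`,
`eq_of_L_eq`.   Owner: helper272.
-/

set_option autoImplicit false

noncomputable section

namespace Fermat.Agent.S19.KM

open AlgebraicCurve Fermat.Agent.S24.FF Fermat.Agent.Lib.RR Module

variable {K F : Type*} [Field K] [Field F] [Algebra K F] [IsCurve K F]

namespace Bpf

omit [IsCurve K F] in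
/-- an element of `L(D)` outside `L(D - v)` has order exactly `- D v` at `v` -/
theorem ord_eq_of_not_mem_sub {D : Divisor K F} {v : Place K F} {f : F} (hf : f ∈ L D)
    (hf' : f ∉ L (D - pt v)) : f ≠ 0 ∧ v.ord f = - D v := by
  have hD : D - pt v + Finsupp.single v 1 = D := sub_add_cancel _ _
  have h := ord_eq_of_mem_of_not_mem (D := D - pt v) (v := v) (f := f) (by rw [hD]; exact hf) hf'
  refine ⟨h.1, h.2.trans ?_⟩
  rw [Finsupp.sub_apply, Finsupp.single_eq_same]
  ring

omit [IsCurve K F] in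
/-- an element of order `- D v` at `v` is not in `L(D - v)` -/
theorem not_mem_sub_of_ord_eq {D : Divisor K F} {v : Place K F} {f : F} (hf0 : f ≠ 0)
    (hf : v.ord f = - D v) : f ∉ L (D - pt v) := by
  intro h
  have h1 := ((mem_riemannRochSpace_iff.mp h) v).resolve_left hf0
  rw [Finsupp.sub_apply, Finsupp.single_eq_same, hf] at h1
  omega

omit [IsCurve K F] in
theorem neg_le_ord {D : Divisor K F} {f : F} (hf : f ∈ L D) (hf0 : f ≠ 0) (v : Place K F) :
    - D v ≤ v.ord f :=
  ((mem_riemannRochSpace_iff.mp hf) v).resolve_left hf0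

end Bpf

theorem isBpf_L {D : Divisor K F} (h : bd K F + 1 ≤ dg D) : IsBpf (L D) D := by
  refine ⟨le_rfl, fun v => ?_⟩
  have hdeg : dg (D - pt v) = dg D - 1 := by
    rw [dg, map_sub, degree_single_eq]
  have h1 : (ell D : ℤ) = dg D + 1 - gen K F := ell_eq (by omega)
  have h2 : (ell (D - pt v) : ℤ) = dg (D - pt v) + 1 - gen K F := ell_eq (by omega)
  have hne : ¬ L D ≤ L (D - pt v) := by
    intro hle
    have := Submodule.finrank_mono hle
    have h3 : (ell D : ℤ) ≤ ell (D - pt v) := by exact_mod_cast this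
    omega
  obtain ⟨f, hf, hf'⟩ := SetLike.not_le_iff_exists.mp hne
  exact ⟨f, hf, Bpf.ord_eq_of_not_mem_sub hf hf'⟩

/-- avoid finitely many hyperplanes (`K` is infinite) -/
theorem IsBpf.exists_forall {W : Submodule K F} {D : Divisor K F} (h : IsBpf W D)
    (s : Finset (Place K F)) : ∃ f ∈ W, f ≠ 0 ∧ ∀ v ∈ s, v.ord f = - D v := by
  classical
  obtain ⟨v₀⟩ := nonempty_place (K := K) (F := F) IsCurve.nonconst
  have : Infinite K := IsAlgClosed.instInfinite
  let p : Place K F → Submodule K W := fun v => (L (D - pt v)).comap W.subtype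
  let S : Finset (Submodule K W) := (insert v₀ s).image p
  have hS : ⊤ ∉ S := by
    intro hmem
    obtain ⟨v, -, hv⟩ := Finset.mem_image.mp hmem
    obtain ⟨f, hfW, hf0, hf⟩ := h.2 v
    have : (⟨f, hfW⟩ : W) ∈ p v := by rw [hv]; trivial
    exact Bpf.not_mem_sub_of_ord_eq hf0 hf this
  have hne := Subspace.biUnion_ne_univ_of_top_notMem hS
  obtain ⟨f, hf⟩ := (Set.ne_univ_iff_exists_notMem _).mp hne
  have hf' : ∀ v ∈ insert v₀ s, f.1 ∉ L (D - pt v) := by
    intro v hv hmem
    apply hf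
    simp only [Set.mem_iUnion]
    exact ⟨p v, Finset.mem_image_of_mem p hv, hmem⟩
  refine ⟨f.1, f.2, ?_, fun v hv => ?_⟩
  · exact (Bpf.ord_eq_of_not_mem_sub (h.1 f.2) (hf' v₀ (Finset.mem_insert_self _ _))).1
  · exact (Bpf.ord_eq_of_not_mem_sub (h.1 f.2) (hf' v (Finset.mem_insert_of_mem hv))).2

theorem IsBpf.exists_pencil {W : Submodule K F} {D : Divisor K F} (h : IsBpf W D) :
    ∃ s ∈ W, ∃ t ∈ W, s ≠ 0 ∧ t ≠ 0 ∧ ∀ v : Place K F, min (v.ord s) (v.ord t) = - D v := by
  classical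
  obtain ⟨s, hsW, hs0, -⟩ := h.exists_forall ∅
  have hfin : {v : Place K F | v.ord s ≠ - D v}.Finite := by
    refine ((finite_ord_ne_zero (K := K) s).union D.support.finite_toSet).subset ?_
    intro v hv
    by_cases hD : D v = 0
    · left
      change v.ord s ≠ 0
      intro h0
      apply hv
      rw [h0, hD, neg_zero]
    · right
      simpa using hD
  obtain ⟨t, htW, ht0, ht⟩ := h.exists_forall hfin.toFinset
  refine ⟨s, hsW, t, htW, hs0, ht0, fun v => ?_⟩
  have h1 := Bpf.neg_le_ord (h.1 hsW) hs0 v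
  have h2 := Bpf.neg_le_ord (h.1 htW) ht0 v
  by_cases hv : v.ord s = - D v
  · rw [hv]; exact min_eq_left h2
  · have := ht v (hfin.mem_toFinset.mpr hv)
    rw [this]; exact min_eq_right h1

omit [IsCurve K F] in
theorem IsBpf.le_iff {W : Submodule K F} {D : Divisor K F} (h : IsBpf W D) (D' : Divisor K F) :
    W ≤ L D' ↔ D ≤ D' := by
  constructor
  · intro hle v
    obtain ⟨f, hfW, hf0, hf⟩ := h.2 v
    have := Bpf.neg_le_ord (hle hfW) hf0 v
    omega
  · intro hle
    exact h.1.trans (L_mono hle)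

theorem L_le_L_iff {D D' : Divisor K F} (h : bd K F + 1 ≤ dg D) : L D ≤ L D' ↔ D ≤ D' :=
  (isBpf_L h).le_iff D'

theorem eq_of_L_eq {D D' : Divisor K F} (h : bd K F + 1 ≤ dg D) (h' : bd K F + 1 ≤ dg D')
    (e : L D = L D') : D = D' :=
  le_antisymm ((L_le_L_iff h).mp e.le) ((L_le_L_iff h').mp e.ge)

end Fermat.Agent.S19.KM
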