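import Fermat.Agent.S19.KM.Curve.Bpf

/-!
# S19 / KM route, section C2: colon spaces of Riemann-Roch spaces.   Owner: helper294.
-/

set_option autoImplicit false
set_option linter.unusedSectionVars false

noncomputable section

namespace Fermat.Agent.S19.KM

open AlgebraicCurve Fermat.Agent.S24.FF Fermat.Agent.Lib.RR Module

variable {K F : Type*} [Field K] [Field F] [Algebra K F] [IsCurve K F]

theorem IsBpf.forall_mul_mem_iff {W : Submodule K F} {D : Divisor K F} (h : IsBpf W D)
    (D' : Divisor K F) (u : F) : (∀ y ∈ W, u * y ∈ L D') ↔ u ∈ L (D' - D) := by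
  constructor
  · intro hu
    rw [mem_riemannRochSpace_iff]
    intro v
    by_cases hu0 : u = 0
    · exact Or.inl hu0
    · right
      obtain ⟨f, hfW, hf0, hfv⟩ := h.2 v
      have h1 := mem_riemannRochSpace_iff.mp (hu f hfW) v
      rcases h1 with h1 | h1
      · exact absurd h1 (mul_ne_zero hu0 hf0)
      · rw [Place.ord_mul v hu0 hf0, hfv] at h1
        rw [Finsupp.sub_apply]
        linarith
  · intro hu y hy
    rw [mem_riemannRochSpace_iff]
    intro v
    by_cases hu0 : u = 0
    · left; rw [hu0, zero_mul]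
    by_cases hy0 : y = 0
    · left; rw [hy0, mul_zero]
    right
    have h1 := (mem_riemannRochSpace_iff.mp hu v).resolve_left hu0
    have h2 := (mem_riemannRochSpace_iff.mp (h.1 hy) v).resolve_left hy0
    rw [Finsupp.sub_apply] at h1
    rw [Place.ord_mul v hu0 hy0]
    linarith

theorem colon_L_of_le {D₁ D D' : Divisor K F} (h : bd K F + 1 ≤ dg D) (hle : D' - D ≤ D₁) :
    colon (L D₁) (L D) (L D') = L (D' - D) := by
  ext u
  rw [mem_colon, (isBpf_L h).forall_mul_mem_iff D' u]
  exact ⟨fun hu => hu.2, fun hu => ⟨L_mono hle hu, hu⟩⟩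

end Fermat.Agent.S19.KM
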