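import Mathlib
import Fermat.Agent.Lib.RR.Riemann
import Fermat.Agent.S19.KM.Colon

/-!
# S19 / KM route: curves (definitions)

`IsCurve K F` : `K` algebraically closed, `F / K` a function field in one variable with the
fundamental identity (`Lib.RR.HasFundId`, automatic in characteristic zero) and a non-constant
element.  All of `Fermat/Agent/Lib/RR/*` (Riemann's theorem, characteristic free) applies.

Owner: helper19.
-/

set_option autoImplicit false

noncomputable section

namespace Fermat.Agent.S19.KM

open AlgebraicCurve Fermat.Agent.S24.FF Fermat.Agent.Lib.RR Module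

/-- a curve, in function field language -/
class IsCurve (K F : Type*) [Field K] [Field F] [Algebra K F] : Prop
    extends IsAlgClosed K, IsFF1 K F, HasFundId K F where
  nonconst : ∃ x : F, Transcendental K x

variable {K F : Type*} [Field K] [Field F] [Algebra K F]

/-- `L(D)` -/
abbrev L (D : Divisor K F) : Submodule K F := riemannRochSpace D

/-- `l(D)` -/
abbrev ell (D : Divisor K F) : ℕ := finrank K (riemannRochSpace D)

/-- the place `v` as a divisor -/
abbrev pt (v : Place K F) : Divisor K F := Finsupp.single v 1

/-- the degree of a divisor -/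
abbrev dg (D : Divisor K F) : ℤ := Divisor.degree D

variable (K F) in
/-- the genus, as an integer -/
abbrev gen : ℤ := (genusFF K F : ℤ)

theorem exists_bd (K F : Type*) [Field K] [Field F] [Algebra K F] [IsCurve K F] :
    ∃ c : ℤ, 0 ≤ c ∧ ∀ D : Divisor K F, c ≤ dg D → (ell D : ℤ) = dg D + 1 - gen K F := by
  obtain ⟨c, hc⟩ := exists_finrank_L_eq (K := K) (F := F) IsCurve.nonconst
  exact ⟨max c 0, le_max_right _ _, fun D hD => hc D ((le_max_left _ _).trans hD)⟩

variable (K F) in
/-- a bound `c ≥ 0` such that `l(D) = deg D + 1 - g` as soon as `deg D ≥ c` -/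
def bd [IsCurve K F] : ℤ := (exists_bd K F).choose

theorem bd_nonneg [IsCurve K F] : 0 ≤ bd K F := (exists_bd K F).choose_spec.1

/-- **Riemann's theorem.** -/
theorem ell_eq [IsCurve K F] {D : Divisor K F} (h : bd K F ≤ dg D) :
    (ell D : ℤ) = dg D + 1 - gen K F := (exists_bd K F).choose_spec.2 D h

instance [IsCurve K F] (D : Divisor K F) : Module.Finite K (L D) :=
  finite_L IsCurve.nonconst D

/-- Riemann's inequality -/
theorem le_ell [IsCurve K F] (D : Divisor K F) : dg D + 1 - gen K F ≤ ell D :=
  riemann_inequality IsCurve.nonconst D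

/-- `W ≤ L(D)` has no base point relative to `D`. -/
def IsBpf (W : Submodule K F) (D : Divisor K F) : Prop :=
  W ≤ L D ∧ ∀ v : Place K F, ∃ f ∈ W, f ≠ 0 ∧ v.ord f = - D v

end Fermat.Agent.S19.KM
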