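import Fermat.Agent.S19.KM.Curve.Pencil
import Fermat.Agent.S19.KM.Curve.Bpf

/-!
# S19 / KM route, section C1b: the base point free pencil trick.   Owner: helper127.
(`pencil_finrank` is in `Curve/Pencil.lean`.)
-/

set_option autoImplicit false

noncomputable section

namespace Fermat.Agent.S19.KM

open AlgebraicCurve Fermat.Agent.S24.FF Fermat.Agent.Lib.RR Module

variable {K F : Type*} [Field K] [Field F] [Algebra K F] [IsCurve K F]

theorem IsBpf.mul_L {W : Submodule K F} {D D' : Divisor K F} (h : IsBpf W D)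
    (h' : bd K F + dg D ≤ dg D') : W * L D' = L (D + D') := by
  obtain ⟨s, hsW, t, htW, hs, ht, hst⟩ := h.exists_pencil
  exact Mul.mul_L_of_pencil h h' hsW htW hs ht hst

theorem L_mul_L {D D' : Divisor K F} (h : bd K F + 1 ≤ dg D) (h' : bd K F + dg D ≤ dg D') :
    L D * L D' = L (D + D') := (isBpf_L h).mul_L h'

end Fermat.Agent.S19.KM
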