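import Fermat.Agent.S19.KM.Curve.Basic
import Fermat.Agent.S19.KM.Curve.Mul
import Fermat.Agent.S19.KM.Curve.Colon

/-!
# S19 / KM route, section C5: the three identities computing `E₃ ∼ E₁ + E₂ - E₀`.
Owner: helper294.
-/

set_option autoImplicit false
set_option linter.unusedSectionVars false

noncomputable section

namespace Fermat.Agent.S19.KM

open AlgebraicCurve Fermat.Agent.S24.FF Fermat.Agent.Lib.RR Module

variable {K F : Type*} [Field K] [Field F] [Algebra K F] [IsCurve K F]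

namespace Fibre

omit [IsCurve K F] in
theorem dg_sub (D D' : Divisor K F) : dg (D - D') = dg D - dg D' := map_sub _ _ _

omit [IsCurve K F] in
theorem dg_add (D D' : Divisor K F) : dg (D + D') = dg D + dg D' := map_add _ _ _

omit [IsCurve K F] in
theorem dg_nsmul (n : ℕ) (D : Divisor K F) : dg (n • D) = n * dg D := by
  rw [← nsmul_eq_mul]
  exact map_nsmul _ _ _

theorem dg_divOf (a : F) : dg (divOf (K := K) a) = 0 := degree_divOf a

end Fibre

section Fibre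
variable {M E₀ E₁ E₂ E₃ : Divisor K F}

open Fibre

theorem fibre_one (hM : bd K F + gen K F + 1 ≤ dg M) (h₁ : dg E₁ = gen K F)
    (h₂ : dg E₂ = gen K F) :
    L (M - E₁) * (L (M - E₂) * L (2 • M)) = L (4 • M - E₁ - E₂) := by
  have hb : 0 ≤ bd K F := bd_nonneg
  have hg : 0 ≤ gen K F := Int.natCast_nonneg _
  have e1 : dg (M - E₁) = dg M - gen K F := by rw [dg_sub, h₁]
  have e2 : dg (M - E₂) = dg M - gen K F := by rw [dg_sub, h₂]
  have e3 : dg (2 • M) = 2 * dg M := by rw [dg_nsmul]; simp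
  have e4 : dg (M - E₂ + 2 • M) = 3 * dg M - gen K F := by
    rw [dg_add, e2, e3]; ring
  rw [L_mul_L (D := M - E₂) (D' := 2 • M) (by rw [e2]; linarith) (by rw [e2, e3]; linarith),
    L_mul_L (D := M - E₁) (D' := M - E₂ + 2 • M) (by rw [e1]; linarith)
      (by rw [e1, e4]; linarith)]
  congr 1
  abel

theorem fibre_two (hM : bd K F + gen K F + 1 ≤ dg M) (h₁ : dg E₁ = gen K F)
    (h₂ : dg E₂ = gen K F) (hE₀ : 0 ≤ E₀) {a : F} (ha : a ≠ 0) (haL : a ∈ L (2 • M - E₁ - E₂)) :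
    colon (L (2 • M)) (L (4 • M - E₁ - E₂)) ((K ∙ a) * L (4 • M - E₀)) =
      (K ∙ a) * L (E₁ + E₂ - E₀) := by
  have hb : 0 ≤ bd K F := bd_nonneg
  have hg : 0 ≤ gen K F := Int.natCast_nonneg _
  have e1 : dg (4 • M - E₁ - E₂) = 4 * dg M - 2 * gen K F := by
    rw [dg_sub, dg_sub, dg_nsmul, h₁, h₂]; push_cast; ring
  rw [span_singleton_mul_L ha, span_singleton_mul_L ha,
    colon_L_of_le (by rw [e1]; linarith)]
  · congr 1
    abel
  · have h3 := (mem_L_iff ha).mp haL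
    have h4 : 4 • M - E₀ - divOf a - (4 • M - E₁ - E₂)
        = 2 • M - (divOf a + (2 • M - E₁ - E₂)) - E₀ := by abel
    rw [h4]
    calc 2 • M - (divOf a + (2 • M - E₁ - E₂)) - E₀ ≤ 2 • M - 0 - 0 :=
          sub_le_sub (sub_le_sub le_rfl h3) hE₀
      _ = 2 • M := by simp

theorem fibre_three (hM : bd K F + gen K F + 1 ≤ dg M) (h₀ : dg E₀ = gen K F) (hE₃ : 0 ≤ E₃)
    {a f₀ : F} (ha : a ≠ 0) (hf₀ : f₀ ≠ 0) (hdiv : divOf f₀ = E₃ + E₀ - E₁ - E₂) :
    colon (L M) ((K ∙ a) * L (3 • M - E₀)) ((K ∙ (a * f₀)) * L (4 • M - E₁ - E₂)) =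
      L (M - E₃) := by
  have hb : 0 ≤ bd K F := bd_nonneg
  have hg : 0 ≤ gen K F := Int.natCast_nonneg _
  have e1 : dg (3 • M - E₀ - divOf a) = 3 * dg M - gen K F := by
    rw [dg_sub, dg_sub, dg_nsmul, h₀, dg_divOf]; push_cast; ring
  have e2 : 4 • M - E₁ - E₂ - divOf (a * f₀) - (3 • M - E₀ - divOf a) = M - E₃ := by
    rw [divOf_mul ha hf₀, hdiv]; abel
  rw [span_singleton_mul_L ha, span_singleton_mul_L (mul_ne_zero ha hf₀),
    colon_L_of_le (by rw [e1]; linarith), e2]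
  rw [e2]
  exact sub_le_self _ hE₃

end Fibre

end Fermat.Agent.S19.KM
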