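import Fermat.Agent.S19.KM.Curve.Defs

/-!
# S19 / KM route, section C3: non-special divisors by pure counting

Owner: helper4.  Only `Curve/Defs.lean` and `Lib/RR/*` are used (the three facts of section C0
needed here are reproved under the sub-namespace `General`).
-/

set_option autoImplicit false

noncomputable section

namespace Fermat.Agent.S19.KM

open AlgebraicCurve Fermat.Agent.S24.FF Fermat.Agent.Lib.RR Module

variable {K F : Type*} [Field K] [Field F] [Algebra K F] [IsCurve K F]

namespace General

theorem dgPt (v : Place K F) : dg (pt v) = 1 := degree_single_eq v 1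

theorem dg_sum_pt (s : Finset (Place K F)) : dg (∑ v ∈ s, pt v) = s.card := by
  show Divisor.degree (∑ v ∈ s, pt v) = s.card
  rw [map_sum, Finset.sum_congr rfl (fun v _ => dgPt v)]
  simp

omit [IsCurve K F] in
theorem sum_pt_nonneg (s : Finset (Place K F)) : (0 : Divisor K F) ≤ ∑ v ∈ s, pt v := by
  refine Finset.sum_nonneg fun v _ w => ?_
  classical
  rw [Finsupp.single_apply]
  split_ifs <;> simp

omit [IsCurve K F] in
theorem sum_pt_apply_of_notMem {s : Finset (Place K F)} {v : Place K F} (hv : v ∉ s) :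
    (∑ w ∈ s, pt w : Divisor K F) v = 0 := by
  rw [Finsupp.finsetSum_apply]
  refine Finset.sum_eq_zero fun w hw => ?_
  exact Finsupp.single_eq_of_ne (fun h => hv (h ▸ hw))

/-- every transcendental element has a zero -/
theorem exists_zero {t : F} (ht : Transcendental K t) : ∃ v : Place K F, 0 < v.ord t := by
  have ht' : Transcendental K t⁻¹ := by
    intro h
    exact ht (by simpa using h.inv)
  obtain ⟨v, hv⟩ := exists_pole ht'
  refine ⟨v, ?_⟩
  rw [v.ord_inv] at hv
  omega

theorem infinitePlace : Infinite (Place K F) := by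
  obtain ⟨x, hx⟩ := (IsCurve.nonconst : ∃ x : F, Transcendental K x)
  have htr : ∀ a : K, Transcendental K (x - algebraMap K F a) := by
    intro a h
    apply hx
    have := h.add (isAlgebraic_algebraMap (R := K) (A := F) a)
    simpa using this
  choose φ hφ using fun a : K => exists_zero (htr a)
  have hinj : Function.Injective φ := by
    intro a b hab
    by_contra hne
    have h1 := hφ a
    have h2 := hφ b
    rw [← hab] at h2
    have hsub : (x - algebraMap K F b) - (x - algebraMap K F a) = algebraMap K F (a - b) := by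
      rw [map_sub]; ring
    have h0 : (φ a).ord (algebraMap K F (a - b)) = 0 := ord_algebraMap _ _
    have hne' : algebraMap K F (a - b) ≠ 0 := by
      rw [Ne, map_eq_zero, sub_eq_zero]; exact hne
    have := min_ord_le_ord_add (φ a) (f := x - algebraMap K F b) (g := -(x - algebraMap K F a))
      (by rw [← sub_eq_add_neg, hsub]; exact hne')
    rw [← sub_eq_add_neg, hsub, h0, ord_neg] at this
    have := lt_min h2 h1
    omega
  exact Infinite.of_injective φ hinj

theorem ellLe {D : Divisor K F} (h : dg D = 0) : ell D ≤ 1 := by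
  obtain ⟨v⟩ := nonempty_place (K := K) (F := F) IsCurve.nonconst
  have h1 : finrank K (riemannRochSpace (D - pt v)) = 0 := by
    have : riemannRochSpace (D - pt v) = ⊥ := L_eq_bot_of_degree_neg (by
      rw [map_sub]
      have := dgPt v
      have h' : Divisor.degree D = 0 := h
      have h'' : Divisor.degree (pt v) = 1 := this
      omega)
    rw [this]; simp
  have := finrank_L_step_le (K := K) (F := F) IsCurve.nonconst (D - pt v) v
  rw [sub_add_cancel, h1] at this
  exact this

/-- one step: a function with an exact extra pole at `v` survives adding places `≠ v` -/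
theorem ell_step_lt (D E : Divisor K F) (hE : 0 ≤ E) (v : Place K F) (hv : E v = 0)
    (h : ell (D + pt v) ≠ ell D) : ell (D + E) + 1 ≤ ell (D + E + pt v) := by
  have hle : L D ≤ L (D + pt v) := L_mono (le_add_single D v)
  obtain ⟨f, hf, hf'⟩ : ∃ f ∈ L (D + pt v), f ∉ L D := by
    by_contra hcon
    push Not at hcon
    have he : riemannRochSpace (D + pt v) = riemannRochSpace D := le_antisymm hcon hle
    exact h (by show finrank K (riemannRochSpace (D + pt v)) = _; rw [he])
  obtain ⟨hf0, hord⟩ := ord_eq_of_mem_of_not_mem hf hf'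
  have hf1 : f ∈ L (D + E + pt v) := by
    refine L_mono ?_ hf
    have : D + pt v ≤ D + pt v + E := le_add_of_nonneg_right hE
    calc D + pt v ≤ D + pt v + E := this
      _ = D + E + pt v := by abel
  have hf2 : f ∉ L (D + E) := by
    intro hmem
    rw [mem_riemannRochSpace_iff] at hmem
    have := (hmem v).resolve_left hf0
    rw [Finsupp.add_apply, hv, hord] at this
    omega
  have hlt : L (D + E) < L (D + E + pt v) :=
    lt_of_le_of_ne (L_mono (le_add_single _ v)) (fun he => hf2 (he ▸ hf1))
  exact Submodule.finrank_lt_finrank_of_lt hlt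

end General

open General

/-- if `v₁, …, v_r` are distinct and `l(D + v_i) = l(D) + 1` for all `i`, then
`l(D + ∑ v_i) ≥ l(D) + r` -/
theorem ell_add_sum_pt_ge (D : Divisor K F) (s : Finset (Place K F))
    (hs : ∀ v ∈ s, ell (D + pt v) ≠ ell D) : ell D + s.card ≤ ell (D + ∑ v ∈ s, pt v) := by
  classical
  induction s using Finset.induction_on with
  | empty => simp
  | insert v s hv ih =>
    have ih' := ih fun w hw => hs w (Finset.mem_insert_of_mem hw)
    have h1 := ell_step_lt D (∑ w ∈ s, pt w) (sum_pt_nonneg s) v (sum_pt_apply_of_notMem hv)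
      (hs v (Finset.mem_insert_self v s))
    rw [Finset.sum_insert hv, Finset.card_insert_of_notMem hv]
    have e : D + (pt v + ∑ w ∈ s, pt w) = D + ∑ w ∈ s, pt w + pt v := by abel
    rw [e]
    omega

theorem finite_setOf_ell_add_pt {D : Divisor K F} (h : dg D + 1 - gen K F < ell D) :
    {v : Place K F | ell (D + pt v) ≠ ell D}.Finite := by
  by_contra hinf
  have hinf' : {v : Place K F | ell (D + pt v) ≠ ell D}.Infinite := hinf
  obtain ⟨s, hs, hcard⟩ := hinf'.exists_subset_card_eq (bd K F - dg D).toNat
  have h1 := ell_add_sum_pt_ge D s (fun v hv => hs hv)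
  have hdeg : dg (D + ∑ v ∈ s, pt v) = dg D + s.card := by
    show Divisor.degree (D + ∑ v ∈ s, pt v) = _
    rw [map_add]
    have := dg_sum_pt s
    rw [show Divisor.degree (∑ v ∈ s, pt v) = dg (∑ v ∈ s, pt v) from rfl, this]
  have hbd : bd K F ≤ dg (D + ∑ v ∈ s, pt v) := by
    rw [hdeg, hcard]
    have := Int.self_le_toNat (bd K F - dg D)
    omega
  have h2 := ell_eq hbd
  rw [hdeg] at h2
  omega

theorem General.exists_finset (Δ : Finset (Divisor K F)) (hΔ : ∀ D ∈ Δ, dg D = 0)
    (U : Set (Place K F)) (hU : Uᶜ.Finite) (k : ℕ) (hk : k ≤ genusFF K F) :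
    ∃ s : Finset (Place K F), s.card = k ∧ (∀ v ∈ s, v ∈ U) ∧
      ∀ D ∈ Δ, ell (D + ∑ v ∈ s, pt v) ≤ 1 := by
  classical
  induction k with
  | zero => exact ⟨∅, rfl, by simp, fun D hD => by simpa using ellLe (hΔ D hD)⟩
  | succ k ih =>
    obtain ⟨s, hcard, hsU, hs⟩ := ih (by omega)
    let B : Set (Place K F) :=
      (⋃ D ∈ Δ, {v | ell (D + ∑ w ∈ s, pt w) = 1 ∧
        ell (D + ∑ w ∈ s, pt w + pt v) ≠ ell (D + ∑ w ∈ s, pt w)}) ∪ Uᶜ ∪ ↑s
    have hB : B.Finite := by
      refine Set.Finite.union (Set.Finite.union ?_ hU) s.finite_toSet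
      refine Set.Finite.biUnion Δ.finite_toSet fun D hD => ?_
      by_cases h1 : ell (D + ∑ w ∈ s, pt w) = 1
      · have hdeg : dg (D + ∑ v ∈ s, pt v) = k := by
          show Divisor.degree (D + ∑ v ∈ s, pt v) = _
          rw [map_add]
          have h2 := dg_sum_pt s
          have h3 := hΔ D hD
          rw [show Divisor.degree (∑ v ∈ s, pt v) = dg (∑ v ∈ s, pt v) from rfl, h2,
            show Divisor.degree D = dg D from rfl, h3, hcard, zero_add]
        refine (finite_setOf_ell_add_pt (D := D + ∑ w ∈ s, pt w) ?_).subset fun v hv => hv.2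
        rw [hdeg, h1]
        have : (k : ℤ) + 1 ≤ gen K F := by exact_mod_cast hk
        push_cast
        omega
      · convert Set.finite_empty (α := Place K F)
        ext v
        simp [h1]
    have := infinitePlace (K := K) (F := F)
    obtain ⟨v, hv⟩ := hB.exists_notMem
    have hv1 : ∀ D ∈ Δ, ell (D + ∑ w ∈ s, pt w) = 1 →
        ell (D + ∑ w ∈ s, pt w + pt v) = ell (D + ∑ w ∈ s, pt w) := by
      intro D hD h1
      by_contra hne
      exact hv (Or.inl (Or.inl (Set.mem_biUnion (Finset.mem_coe.2 hD) ⟨h1, hne⟩)))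
    have hv2 : v ∈ U := by
      by_contra hne
      exact hv (Or.inl (Or.inr hne))
    have hv3 : v ∉ s := fun hmem => hv (Or.inr (Finset.mem_coe.2 hmem))
    refine ⟨insert v s, by rw [Finset.card_insert_of_notMem hv3, hcard], ?_, ?_⟩
    · intro w hw
      rcases Finset.mem_insert.1 hw with rfl | hw
      · exact hv2
      · exact hsU w hw
    · intro D hD
      rw [Finset.sum_insert hv3]
      have e : D + (pt v + ∑ w ∈ s, pt w) = D + ∑ w ∈ s, pt w + pt v := by abel
      rw [e]
      have h0 := hs D hD
      by_cases h1 : ell (D + ∑ w ∈ s, pt w) = 1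
      · rw [hv1 D hD h1, h1]
      · have h2 : ell (D + ∑ w ∈ s, pt w) = 0 := by omega
        have := finrank_L_step_le (K := K) (F := F) IsCurve.nonconst (D + ∑ w ∈ s, pt w) v
        rw [show finrank K (riemannRochSpace (D + ∑ w ∈ s, pt w)) = 0 from h2] at this
        exact this

theorem exists_nonspecial (Δ : Finset (Divisor K F)) (hΔ : ∀ D ∈ Δ, dg D = 0)
    (U : Set (Place K F)) (hU : Uᶜ.Finite) :
    ∃ Q : Fin (genusFF K F) → Place K F, Function.Injective Q ∧ (∀ i, Q i ∈ U) ∧
      ∀ D ∈ Δ, ell (D + ∑ i, pt (Q i)) = 1 := by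
  classical
  obtain ⟨s, hcard, hsU, hs⟩ := General.exists_finset Δ hΔ U hU (genusFF K F) le_rfl
  let e : Fin (genusFF K F) ≃ s := (Finset.equivFinOfCardEq hcard).symm
  have hsum : ∑ i, pt ((e i : Place K F)) = ∑ v ∈ s, pt v := by
    rw [Equiv.sum_comp e (fun x : s => pt (x : Place K F))]
    exact Finset.sum_coe_sort s (fun v => pt v)
  refine ⟨fun i => (e i : Place K F), fun i j hij => e.injective (Subtype.ext hij),
    fun i => hsU _ (e i).2, fun D hD => ?_⟩
  rw [hsum]
  have h1 := hs D hD
  have h2 := le_ell (D + ∑ v ∈ s, pt v)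
  have hdeg : dg (D + ∑ v ∈ s, pt v) = gen K F := by
    show Divisor.degree (D + ∑ v ∈ s, pt v) = _
    rw [map_add]
    have h2 := dg_sum_pt s
    have h3 := hΔ D hD
    rw [show Divisor.degree (∑ v ∈ s, pt v) = dg (∑ v ∈ s, pt v) from rfl, h2,
      show Divisor.degree D = dg D from rfl, h3, hcard, zero_add]
  rw [hdeg] at h2
  omega

end Fermat.Agent.S19.KM
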