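import Fermat.Agent.S19.KM.Curve.Basic
import Fermat.Agent.S19.KM.Curve.Bpf
import Fermat.Agent.S19.KM.Curve.Mul

/-!
# S19 / KM route, section C4: graded ideals are `⨁ L(iM - E)`

* `exists_isBpf` : the base divisor of a nonzero space of functions `W ≤ L(D)`.
* `exists_eq_L_of_graded` : a "graded ideal" `I_i ≤ L(iM)` (`i ≥ i₁`) of codimension `d`,
  stable under multiplication by `L(jM)`, is `L(iM - E)` for a unique effective `E` of degree `d`.

Owner: helper211 (task 939).
-/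

set_option autoImplicit false

noncomputable section

namespace Fermat.Agent.S19.KM

open AlgebraicCurve Fermat.Agent.S24.FF Fermat.Agent.Lib.RR Module

variable {K F : Type*} [Field K] [Field F] [Algebra K F] [IsCurve K F]

/-- the base divisor of a nonzero finite dimensional space of functions -/
theorem exists_isBpf {W : Submodule K F} {D : Divisor K F} (hW : W ≤ L D) (h0 : W ≠ ⊥) :
    ∃ E : Divisor K F, 0 ≤ E ∧ IsBpf W (D - E) := by
  classical
  obtain ⟨f₀, hf₀W, hf₀⟩ := Submodule.exists_mem_ne_zero_of_ne_bot h0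
  -- nonnegativity of `ord f + D`
  have hnn : ∀ f ∈ W, f ≠ 0 → ∀ v : Place K F, 0 ≤ v.ord f + D v := by
    intro f hf hf0 v
    have := (mem_riemannRochSpace_iff.mp (hW hf) v).resolve_left hf0
    omega
  -- the set of values
  let S : Place K F → Set ℕ := fun v => {n : ℕ | ∃ f ∈ W, f ≠ 0 ∧ v.ord f + D v = n}
  have hS : ∀ v, (S v).Nonempty := fun v =>
    ⟨(v.ord f₀ + D v).toNat, f₀, hf₀W, hf₀, (Int.toNat_of_nonneg (hnn f₀ hf₀W hf₀ v)).symm⟩
  let e : Place K F → ℤ := fun v => (sInf (S v) : ℕ)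
  have he_mem : ∀ v, ∃ f ∈ W, f ≠ 0 ∧ v.ord f + D v = e v := fun v => Nat.sInf_mem (hS v)
  have he_le : ∀ v, ∀ f ∈ W, f ≠ 0 → e v ≤ v.ord f + D v := by
    intro v f hf hf0
    have h1 : (v.ord f + D v).toNat ∈ S v :=
      ⟨f, hf, hf0, (Int.toNat_of_nonneg (hnn f hf hf0 v)).symm⟩
    have h2 : sInf (S v) ≤ (v.ord f + D v).toNat := Nat.sInf_le h1
    have h3 := Int.toNat_of_nonneg (hnn f hf hf0 v)
    show ((sInf (S v) : ℕ) : ℤ) ≤ _
    omega
  have he_nn : ∀ v, 0 ≤ e v := fun v => Int.natCast_nonneg _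
  have hfin : (Function.support e).Finite := by
    refine (divOf (K := K) f₀ + D).support.finite_toSet.subset fun v hv => ?_
    have h1 : e v ≠ 0 := hv
    have h2 := he_le v f₀ hf₀W hf₀
    have h3 := he_nn v
    simp only [Finset.mem_coe, Finsupp.mem_support_iff, Finsupp.add_apply, divOf_apply]
    omega
  refine ⟨Finsupp.ofSupportFinite e hfin, fun v => he_nn v, ?_, fun v => ?_⟩
  · intro f hf
    refine mem_riemannRochSpace_iff.mpr fun v => ?_
    by_cases hf0 : f = 0
    · exact Or.inl hf0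
    · refine Or.inr ?_
      have := he_le v f hf hf0
      rw [Finsupp.sub_apply]
      show -(D v - e v) ≤ _
      omega
  · obtain ⟨f, hf, hf0, h⟩ := he_mem v
    refine ⟨f, hf, hf0, ?_⟩
    rw [Finsupp.sub_apply]
    show _ = -(D v - e v)
    omega

section Graded

variable {M : Divisor K F} {d : ℤ} {i₁ : ℕ} {I : ℕ → Submodule K F}

omit [IsCurve K F] in
theorem graded_dg_nsmul (i : ℕ) (M : Divisor K F) : dg (i • M) = i * dg M := by
  simp [dg, map_nsmul]

/-- the key step: for one `i ≥ i₁`, a base divisor `E` of `I i` has degree `d`, `I i = L(iM - E)`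
and `I (i+j) = L((i+j)M - E)` for all `j ≥ i + i₁`. -/
theorem graded_step (hd : 0 ≤ d)
    (hM : bd K F + d + gen K F + 1 ≤ i₁ * dg M)
    (hI : ∀ i, i₁ ≤ i → I i ≤ L (i • M))
    (hdim : ∀ i, i₁ ≤ i → (finrank K (I i) : ℤ) = i * dg M - d + 1 - gen K F)
    (hmul : ∀ i j, i₁ ≤ i → i₁ ≤ j → L (j • M) * I i ≤ I (i + j))
    {i : ℕ} (hi : i₁ ≤ i) {E : Divisor K F} (hE : 0 ≤ E) (hbpf : IsBpf (I i) (i • M - E)) :
    dg E = d ∧ I i = L (i • M - E) ∧
      ∀ j, i + i₁ ≤ j → I (i + j) = L ((i + j) • M - E) := by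
  have hbd := bd_nonneg (K := K) (F := F)
  have hg : 0 ≤ gen K F := Int.natCast_nonneg _
  have hpos : 0 < (i₁ : ℤ) * dg M := by linarith
  have hi₁ : 0 ≤ (i₁ : ℤ) := Int.natCast_nonneg _
  have hMpos : 0 < dg M := by
    by_contra hcon
    have : (i₁ : ℤ) * dg M ≤ 0 := mul_nonpos_of_nonneg_of_nonpos hi₁ (not_lt.mp hcon)
    omega
  have hmono : ∀ a b : ℕ, a ≤ b → (a : ℤ) * dg M ≤ b * dg M := fun a b hab =>
    mul_le_mul_of_nonneg_right (by exact_mod_cast hab) hMpos.le
  have hiM := hmono _ _ hi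
  have hdegE : 0 ≤ dg E := degree_nonneg hE
  have hdgD : dg (i • M - E) = i * dg M - dg E := by
    rw [dg, map_sub]; exact congrArg (· - dg E) (graded_dg_nsmul i M)
  -- `I i ≠ ⊥`
  have hdimi := hdim i hi
  have hne : I i ≠ ⊥ := by
    intro h
    rw [h, finrank_bot] at hdimi
    push_cast at hdimi
    linarith
  obtain ⟨f, hf, hf0⟩ := Submodule.exists_mem_ne_zero_of_ne_bot hne
  have hDnn : 0 ≤ dg (i • M - E) := dg_nonneg_of_mem_L (hbpf.1 hf) hf0
  -- dimension comparison
  have hle1 : finrank K (I i) ≤ ell (i • M - E) := Submodule.finrank_mono hbpf.1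
  have hle1' : (finrank K (I i) : ℤ) ≤ ell (i • M - E) := by exact_mod_cast hle1
  have h1 : (ell (i • M - E) : ℤ) ≤ dg (i • M - E) + 1 := ell_le (by linarith)
  have hE1 : dg E ≤ d + gen K F := by linarith
  have hD1 : bd K F + 1 ≤ dg (i • M - E) := by linarith
  have h2 : (ell (i • M - E) : ℤ) = dg (i • M - E) + 1 - gen K F := ell_eq (by linarith)
  have hE2 : dg E ≤ d := by linarith
  -- multiplication
  have hprod : ∀ j, i + i₁ ≤ j → L ((i + j) • M - E) ≤ I (i + j) := by
    intro j hj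
    have hjM := hmono _ _ hj
    have hdgj : dg (j • M) = j * dg M := graded_dg_nsmul j M
    have h3 : I i * L (j • M) = L (i • M - E + j • M) := by
      refine hbpf.mul_L ?_
      push_cast at hjM
      rw [hdgj, hdgD]
      linarith
    have h4 : i • M - E + j • M = (i + j) • M - E := by
      rw [add_nsmul]; abel
    rw [← h4, ← h3, mul_comm]
    exact hmul i j hi (by omega)
  have hdgij : ∀ j : ℕ, dg ((i + j) • M - E) = (i + j : ℕ) * dg M - dg E := by
    intro j
    rw [dg, map_sub]; exact congrArg (· - dg E) (graded_dg_nsmul (i + j) M)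
  have hfinI : ∀ j, i₁ ≤ j → Module.Finite K (I j) := fun j hj =>
    Submodule.finiteDimensional_of_le (hI j hj)
  have hE3 : d ≤ dg E := by
    have hj : i + i₁ ≤ i + i₁ := le_rfl
    have h5 := hprod _ hj
    have := hfinI (i + (i + i₁)) (by omega)
    have h6 : ell ((i + (i + i₁)) • M - E) ≤ finrank K (I (i + (i + i₁))) :=
      Submodule.finrank_mono h5
    have h6' : (ell ((i + (i + i₁)) • M - E) : ℤ) ≤ finrank K (I (i + (i + i₁))) := by
      exact_mod_cast h6
    have h7 := le_ell ((i + (i + i₁)) • M - E)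
    rw [hdgij] at h7
    rw [hdim _ (by omega)] at h6'
    linarith
  have hEd : dg E = d := le_antisymm hE2 hE3
  refine ⟨hEd, ?_, fun j hj => ?_⟩
  · refine Submodule.eq_of_le_of_finrank_eq hbpf.1 ?_
    have : (finrank K (I i) : ℤ) = ell (i • M - E) := by
      rw [h2, hdimi, hdgD, hEd]
    exact_mod_cast this
  · have := hfinI (i + j) (by omega)
    refine (Submodule.eq_of_le_of_finrank_eq (hprod j hj) ?_).symm
    have hb : bd K F ≤ dg ((i + j) • M - E) := by
      rw [hdgij]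
      have := hmono i (i + j) (by omega)
      linarith
    have : (ell ((i + j) • M - E) : ℤ) = finrank K (I (i + j)) := by
      rw [ell_eq hb, hdim _ (by omega), hdgij, hEd]
    exact_mod_cast this

end Graded

theorem exists_eq_L_of_graded (M : Divisor K F) (d : ℤ) (i₁ : ℕ) (hd : 0 ≤ d)
    (hM : bd K F + d + gen K F + 1 ≤ i₁ * dg M)
    (I : ℕ → Submodule K F) (hI : ∀ i, i₁ ≤ i → I i ≤ L (i • M))
    (hdim : ∀ i, i₁ ≤ i → (finrank K (I i) : ℤ) = i * dg M - d + 1 - gen K F)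
    (hmul : ∀ i j, i₁ ≤ i → i₁ ≤ j → L (j • M) * I i ≤ I (i + j)) :
    ∃ E : Divisor K F, 0 ≤ E ∧ dg E = d ∧ ∀ i, i₁ ≤ i → I i = L (i • M - E) := by
  have hbd := bd_nonneg (K := K) (F := F)
  have hg : 0 ≤ gen K F := Int.natCast_nonneg _
  have hi₁ : 0 ≤ (i₁ : ℤ) := Int.natCast_nonneg _
  have hMpos : 0 < dg M := by
    by_contra hcon
    have : (i₁ : ℤ) * dg M ≤ 0 := mul_nonpos_of_nonneg_of_nonpos hi₁ (not_lt.mp hcon)
    omega
  have hmono : ∀ a b : ℕ, a ≤ b → (a : ℤ) * dg M ≤ b * dg M := fun a b hab =>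
    mul_le_mul_of_nonneg_right (by exact_mod_cast hab) hMpos.le
  -- base divisors
  have hne : ∀ i, i₁ ≤ i → I i ≠ ⊥ := by
    intro i hi h
    have hdimi := hdim i hi
    have := hmono _ _ hi
    rw [h, finrank_bot] at hdimi
    push_cast at hdimi
    linarith
  have hex : ∀ i, i₁ ≤ i → ∃ E : Divisor K F, 0 ≤ E ∧ IsBpf (I i) (i • M - E) :=
    fun i hi => exists_isBpf (hI i hi) (hne i hi)
  -- uniqueness
  have huniq : ∀ i i', i₁ ≤ i → i₁ ≤ i' → ∀ E E' : Divisor K F, 0 ≤ E → 0 ≤ E' →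
      IsBpf (I i) (i • M - E) → IsBpf (I i') (i' • M - E') → E = E' := by
    intro i i' hi hi' E E' hE hE' hb hb'
    obtain ⟨hd1, -, h1⟩ := graded_step hd hM hI hdim hmul hi hE hb
    obtain ⟨hd2, -, h2⟩ := graded_step hd hM hI hdim hmul hi' hE' hb'
    have e1 := h1 (i + 2 * i' + i₁) (by omega)
    have e2 := h2 (2 * i + i' + i₁) (by omega)
    have hn : i + (i + 2 * i' + i₁) = i' + (2 * i + i' + i₁) := by omega
    rw [hn] at e1
    have e3 := e1.symm.trans e2
    have hdgn : ∀ E'' : Divisor K F, dg E'' = d →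
        bd K F + 1 ≤ dg ((i' + (2 * i + i' + i₁)) • M - E'') := by
      intro E'' hE''
      have : dg ((i' + (2 * i + i' + i₁)) • M - E'') =
          (i' + (2 * i + i' + i₁) : ℕ) * dg M - dg E'' := by
        rw [dg, map_sub]; exact congrArg (· - dg E'') (graded_dg_nsmul _ M)
      rw [this, hE'']
      have := hmono i₁ (i' + (2 * i + i' + i₁)) (by omega)
      linarith
    have e4 := eq_of_L_eq (hdgn E hd1) (hdgn E' hd2) e3
    exact sub_right_injective e4
  obtain ⟨E, hE, hb⟩ := hex i₁ le_rfl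
  refine ⟨E, hE, (graded_step hd hM hI hdim hmul le_rfl hE hb).1, fun i hi => ?_⟩
  obtain ⟨E', hE', hb'⟩ := hex i hi
  have := huniq i₁ i le_rfl hi E E' hE hE' hb hb'
  rw [this]
  exact (graded_step hd hM hI hdim hmul hi hE' hb').2.1

end Fermat.Agent.S19.KM
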