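import Fermat.Agent.S19.KM.Curve.Defs

/-!
# S19 / KM route, section C1b: the base point free pencil trick (core).   Owner: helper127.
-/

set_option autoImplicit false

noncomputable section

namespace Fermat.Agent.S19.KM

open AlgebraicCurve Fermat.Agent.S24.FF Fermat.Agent.Lib.RR Module

variable {K F : Type*} [Field K] [Field F] [Algebra K F]

/-- `(K ∙ s) * V` is the image of `V` under multiplication by `s`. -/
theorem Mul.span_singleton_mul_eq_map (s : F) (V : Submodule K F) :
    (K ∙ s) * V = V.map (LinearMap.mulLeft K s) := by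
  apply le_antisymm
  · rw [Submodule.mul_le]
    intro m hm n hn
    obtain ⟨c, rfl⟩ := Submodule.mem_span_singleton.mp hm
    refine ⟨c • n, V.smul_mem c hn, ?_⟩
    simp [LinearMap.mulLeft_apply]
  · rintro _ ⟨a, ha, rfl⟩
    exact Submodule.mul_mem_mul (Submodule.mem_span_singleton_self s) ha

theorem Mul.mem_L_sub_iff {D D' : Divisor K F} {s t : F} (hs : s ≠ 0) (ht : t ≠ 0)
    (hst : ∀ v : Place K F, min (v.ord s) (v.ord t) = - D v) (h : F) :
    h ∈ L (D' - D) ↔ s * h ∈ L D' ∧ t * h ∈ L D' := by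
  rcases eq_or_ne h 0 with rfl | h0
  · simp
  simp only [L, mem_riemannRochSpace_iff]
  constructor
  · intro H
    refine ⟨fun v => Or.inr ?_, fun v => Or.inr ?_⟩
    · have h1 := (H v).resolve_left h0
      have h2 := hst v
      rw [Finsupp.sub_apply] at h1
      rw [v.ord_mul hs h0]
      omega
    · have h1 := (H v).resolve_left h0
      have h2 := hst v
      rw [Finsupp.sub_apply] at h1
      rw [v.ord_mul ht h0]
      omega
  · rintro ⟨H1, H2⟩ v
    right
    have h1 := (H1 v).resolve_left (mul_ne_zero hs h0)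
    have h2 := (H2 v).resolve_left (mul_ne_zero ht h0)
    have h3 := hst v
    rw [v.ord_mul hs h0] at h1
    rw [v.ord_mul ht h0] at h2
    rw [Finsupp.sub_apply]
    omega

variable [IsCurve K F]

/-- kernel of `(a, b) ↦ s a + t b` on `L(D') × L(D')` is `L(D' - D)` -/
theorem pencil_finrank {D D' : Divisor K F} {s t : F} (hs : s ≠ 0) (ht : t ≠ 0)
    (hst : ∀ v : Place K F, min (v.ord s) (v.ord t) = - D v) :
    finrank K ((K ∙ s) * L D' ⊔ (K ∙ t) * L D' : Submodule K F) + ell (D' - D) = 2 * ell D' := by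
  set V : Submodule K F := L D' with hV
  obtain ⟨Φ, hΦ, hrange⟩ : ∃ Φ : (V × V) →ₗ[K] F, (∀ x : V × V, Φ x = s * x.1 + t * x.2) ∧
      LinearMap.range Φ = (K ∙ s) * V ⊔ (K ∙ t) * V := by
    refine ⟨((LinearMap.mulLeft K s).comp V.subtype).coprod
      ((LinearMap.mulLeft K t).comp V.subtype), fun x => rfl, ?_⟩
    rw [LinearMap.range_coprod, LinearMap.range_comp, LinearMap.range_comp, Submodule.range_subtype,
      Mul.span_singleton_mul_eq_map, Mul.span_singleton_mul_eq_map]
  obtain ⟨π, hπ⟩ : ∃ π : LinearMap.ker Φ →ₗ[K] F,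
      ∀ x : LinearMap.ker Φ, π x = t⁻¹ * ((x : V × V).1 : F) :=
    ⟨((LinearMap.mulLeft K t⁻¹).comp (V.subtype.comp (LinearMap.fst K V V))).comp
      (LinearMap.ker Φ).subtype, fun x => rfl⟩
  have hker : ∀ x : LinearMap.ker Φ, s * ((x : V × V).1 : F) + t * ((x : V × V).2 : F) = 0 := by
    intro x
    have := LinearMap.mem_ker.mp x.2
    rwa [hΦ] at this
  have hinj : Function.Injective π := by
    intro x y hxy
    rw [hπ, hπ] at hxy
    have h1 : ((x : V × V).1 : F) = ((y : V × V).1 : F) := mul_left_cancel₀ (inv_ne_zero ht) hxy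
    have h2 : ((x : V × V).2 : F) = ((y : V × V).2 : F) := by
      have hx := hker x
      have hy := hker y
      rw [h1] at hx
      have : t * ((x : V × V).2 : F) = t * ((y : V × V).2 : F) := by linear_combination hx - hy
      exact mul_left_cancel₀ ht this
    exact Subtype.ext (Prod.ext (Subtype.ext h1) (Subtype.ext h2))
  have hrangeπ : LinearMap.range π = L (D' - D) := by
    apply le_antisymm
    · rintro _ ⟨x, rfl⟩
      rw [hπ, Mul.mem_L_sub_iff hs ht hst]
      constructor
      · have h1 : s * (t⁻¹ * ((x : V × V).1 : F)) = -((x : V × V).2 : F) := by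
          have := hker x
          field_simp
          linear_combination this
        rw [h1]
        exact neg_mem (x : V × V).2.2
      · rw [mul_inv_cancel_left₀ ht]
        exact (x : V × V).1.2
    · intro h hh
      obtain ⟨h1, h2⟩ := (Mul.mem_L_sub_iff hs ht hst h).mp hh
      refine ⟨⟨(⟨t * h, h2⟩, ⟨-(s * h), neg_mem h1⟩), ?_⟩, ?_⟩
      · rw [LinearMap.mem_ker, hΦ]
        show s * (t * h) + t * (-(s * h)) = 0
        ring
      · rw [hπ]
        show t⁻¹ * (t * h) = h
        rw [inv_mul_cancel_left₀ ht]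
  have h1 := LinearMap.finrank_range_add_finrank_ker Φ
  have h2 := LinearMap.finrank_range_of_inj hinj
  rw [hrangeπ] at h2
  rw [hrange, ← h2, Module.finrank_prod] at h1
  rw [h1]
  ring

omit [IsCurve K F] in
theorem Mul.mul_mem_L {D D' : Divisor K F} {f g : F} (hf : f ∈ L D) (hg : g ∈ L D') :
    f * g ∈ L (D + D') := by
  rcases eq_or_ne f 0 with rfl | hf0
  · simp
  rcases eq_or_ne g 0 with rfl | hg0
  · simp
  simp only [L, mem_riemannRochSpace_iff] at hf hg ⊢
  intro v
  right
  have h1 := (hf v).resolve_left hf0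
  have h2 := (hg v).resolve_left hg0
  rw [v.ord_mul hf0 hg0, Finsupp.add_apply]
  omega

theorem Mul.dg_nonneg {D : Divisor K F} {f : F} (hf : f ∈ L D) (hf0 : f ≠ 0) : 0 ≤ dg D := by
  by_contra hneg
  have := L_eq_bot_of_degree_neg (K := K) (F := F) (D := D) (not_le.mp hneg)
  rw [L, this, Submodule.mem_bot] at hf
  exact hf0 hf

/-- the pencil trick, with the pencil given -/
theorem Mul.mul_L_of_pencil {W : Submodule K F} {D D' : Divisor K F} (h : IsBpf W D)
    (h' : bd K F + dg D ≤ dg D') {s t : F} (hsW : s ∈ W) (htW : t ∈ W) (hs : s ≠ 0) (ht : t ≠ 0)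
    (hst : ∀ v : Place K F, min (v.ord s) (v.ord t) = - D v) : W * L D' = L (D + D') := by
  have hD : 0 ≤ dg D := Mul.dg_nonneg (h.1 hsW) hs
  have hbd := bd_nonneg (K := K) (F := F)
  have hle1 : W * L D' ≤ L (D + D') := by
    rw [Submodule.mul_le]
    intro m hm n hn
    exact Mul.mul_mem_L (h.1 hm) hn
  have hle2 : ((K ∙ s) * L D' ⊔ (K ∙ t) * L D' : Submodule K F) ≤ W * L D' := by
    refine sup_le ?_ ?_
    · exact mul_le_mul' ((Submodule.span_singleton_le_iff_mem s W).mpr hsW) le_rfl
    · exact mul_le_mul' ((Submodule.span_singleton_le_iff_mem t W).mpr htW) le_rfl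
  have hfr := pencil_finrank (D := D) (D' := D') hs ht hst
  have hsub : dg (D' - D) = dg D' - dg D := map_sub _ _ _
  have hadd : dg (D + D') = dg D + dg D' := map_add _ _ _
  have e1 : (ell D' : ℤ) = dg D' + 1 - gen K F := ell_eq (by omega)
  have e2 : (ell (D' - D) : ℤ) = dg (D' - D) + 1 - gen K F := ell_eq (by omega)
  have e3 : (ell (D + D') : ℤ) = dg (D + D') + 1 - gen K F := ell_eq (by omega)
  have hfr' : finrank K ((K ∙ s) * L D' ⊔ (K ∙ t) * L D' : Submodule K F) =
      finrank K (L (D + D')) := by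
    have : (finrank K ((K ∙ s) * L D' ⊔ (K ∙ t) * L D' : Submodule K F) : ℤ) =
        (ell (D + D') : ℤ) := by
      have := congrArg (Nat.cast : ℕ → ℤ) hfr
      push_cast at this
      omega
    exact_mod_cast this
  have heq := Submodule.eq_of_le_of_finrank_eq (hle2.trans hle1) hfr'
  exact le_antisymm hle1 (heq ▸ hle2)

end Fermat.Agent.S19.KM
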